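import Mathlib.GroupTheory.FiniteAbelian.Duality
import Mathlib.RingTheory.RootsOfUnity.AlgebraicallyClosed
import Mathlib.Analysis.Complex.Polynomial.Basic

/-!
# The product over the characters of a finite abelian group

For an element `x` of order `f` of a finite abelian group `G`,
`∏ ψ, (1 - ψ x * T) = (1 - T ^ f) ^ (|G| / f)`, the product over all characters of `G`.
-/

set_option autoImplicit false
set_option linter.style.haveILetI false

noncomputable section

namespace FA.AbelianZeta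

theorem prod_one_sub_monoidHom {G : Type*} [CommGroup G] [Finite G] [Fintype (G →* ℂˣ)] (x : G)
    (T : ℂ) :
    ∏ ψ : G →* ℂˣ, (1 - (ψ x : ℂ) * T) = (1 - T ^ orderOf x) ^ (Nat.card G / orderOf x) := by
  classical
  haveI : NeZero (orderOf x) := ⟨(orderOf_pos x).ne'⟩
  haveI : NeZero (Monoid.exponent G : ℂ) :=
    ⟨Nat.cast_ne_zero.mpr Monoid.exponent_ne_zero_of_finite⟩
  set f := orderOf x
  let _ : Fintype (rootsOfUnity f ℂ) := Fintype.ofFinite _
  obtain ⟨ζ, hζ⟩ := HasEnoughRootsOfUnity.exists_primitiveRoot ℂ f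
  let ev : (G →* ℂˣ) →* ℂˣ :=
    { toFun := fun ψ => ψ x, map_one' := rfl, map_mul' := fun _ _ => rfl }
  let μ := Units.mk0 ζ (hζ.ne_zero (NeZero.ne f))
  have hμ : IsPrimitiveRoot μ f := IsPrimitiveRoot.coe_units_iff.mp hζ
  -- the values at `x` are the roots of unity of order `f`, equally often
  have hrange : ev.range = rootsOfUnity f ℂ := by
    refine le_antisymm ?_ fun z hz => ?_
    · rintro _ ⟨ψ, rfl⟩
      rw [mem_rootsOfUnity]
      show ψ x ^ f = 1
      rw [← map_pow, pow_orderOf_eq_one, map_one]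
    · have hz' : orderOf z ∣ orderOf x := orderOf_dvd_of_pow_eq_one ((mem_rootsOfUnity f z).mp hz)
      let φ : Subgroup.zpowers x →* ℂˣ :=
        monoidHomOfForallMemZpowers (g := ⟨x, Subgroup.mem_zpowers x⟩)
          (fun y => by
            obtain ⟨j, hj⟩ := Subgroup.mem_zpowers_iff.mp y.2
            exact ⟨j, Subtype.ext (by simpa using hj)⟩)
          (g' := z) (by simpa [Subgroup.orderOf_mk] using hz')
      obtain ⟨ψ, hψ⟩ := MonoidHom.domRestrict_surjective (M := ℂ) (Subgroup.zpowers x) φ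
      refine ⟨ψ, ?_⟩
      show ψ x = z
      calc ψ x = MonoidHom.domRestrictHom (Subgroup.zpowers x) ℂˣ ψ ⟨x, Subgroup.mem_zpowers x⟩ :=
            rfl
        _ = z := by rw [hψ]; exact monoidHomOfForallMemZpowers_apply_gen _ _
  have hcard : ∀ z ∈ ev.range,
      (Finset.univ.filter fun ψ : G →* ℂˣ => ev ψ = z).card = Nat.card G / f := by
    intro z hz
    rw [MonoidHom.card_fiber_eq_of_mem_range ev hz (one_mem ev.range)]
    have h := Subgroup.card_mul_index ev.ker
    rw [Subgroup.index_ker, hrange,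
      CommGroup.card_monoidHom_of_hasEnoughRootsOfUnity G ℂ,
      hζ.card_rootsOfUnity] at h
    rw [← h, Nat.mul_div_cancel _ (NeZero.pos f), ← Fintype.card_subtype, ← Nat.card_eq_fintype_card]
    rfl
  rw [← Finset.prod_fiberwise_of_maps_to (t := Finset.univ.image ev) (g := ev)
    fun ψ _ => Finset.mem_image_of_mem _ (Finset.mem_univ ψ)]
  rw [Finset.prod_congr rfl fun z hz => Finset.prod_congr rfl fun ψ hψ => by
    rw [show ψ x = z from (Finset.mem_filter.mp hψ).2]]
  simp only [Finset.prod_const]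
  rw [Finset.prod_congr rfl fun z hz => by
    rw [hcard z (by obtain ⟨ψ, -, rfl⟩ := Finset.mem_image.mp hz; exact ⟨ψ, rfl⟩)],
    Finset.prod_pow]
  congr 1
  have h := hζ.pow_sub_pow_eq_prod_sub_mul 1 T (NeZero.pos f)
  rw [one_pow] at h
  rw [h]
  refine Finset.prod_bij (fun z _ => (z : ℂ)) (fun z hz => ?_) (fun _ _ _ _ e => Units.ext e)
    (fun w hw => ?_) fun _ _ => rfl
  · obtain ⟨ψ, -, rfl⟩ := Finset.mem_image.mp hz
    have hmem : ev ψ ∈ rootsOfUnity f ℂ := hrange ▸ ⟨ψ, rfl⟩
    rw [Polynomial.mem_nthRootsFinset (NeZero.pos f)]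
    simpa using congrArg Units.val ((mem_rootsOfUnity f _).mp hmem)
  · rw [Polynomial.mem_nthRootsFinset (NeZero.pos f)] at hw
    have hw0 : w ≠ 0 := fun e => by simp [e, zero_pow (NeZero.ne f)] at hw
    obtain ⟨ψ, hψ⟩ : Units.mk0 w hw0 ∈ ev.range :=
      hrange ▸ (mem_rootsOfUnity f _).mpr (Units.ext (by simpa using hw))
    exact ⟨_, Finset.mem_image_of_mem _ (Finset.mem_univ ψ), congrArg Units.val hψ⟩

end FA.AbelianZeta

end
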