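import Mathlib.NumberTheory.NumberField.Cyclotomic.Galois
import Mathlib.FieldTheory.Galois.Abelian

/-!
# The decomposition of a prime in a subfield of a cyclotomic field

Write `n = p ^ k * m` with `p ∤ m`. In `ℚ(ζ_n)` the inertia group at `p` is the kernel of the map to
`(ℤ/m)ˣ` and the decomposition group the preimage of the subgroup generated by `p`. So in a
subfield `F` the inertia degree is the order of `p` in `(ℤ/m)ˣ` modulo the image of the group of `F`,
and the number of primes is the index of the subgroup that it generates there.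
-/

set_option autoImplicit false
set_option linter.style.haveILetI false
set_option linter.unusedSectionVars false

noncomputable section

open NumberField MulAction Ideal
open scoped Pointwise

attribute [local instance] Ideal.Quotient.field

namespace FA.AbelianZeta

/-- Cardinality of a subgroup by means of a homomorphism. -/
theorem card_map_mul_card_inf_ker {G G' : Type*} [Group G] [Group G'] (π : G →* G')
    (S : Subgroup G) : Nat.card (S.map π) * Nat.card (S ⊓ π.ker : Subgroup G) = Nat.card S := by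
  have h := Subgroup.card_mul_index (π.comp S.subtype).ker
  rw [Subgroup.index_ker, MonoidHom.range_comp, Subgroup.range_subtype, mul_comm] at h
  rw [← h]
  congr 1
  refine Nat.card_congr
    { toFun := fun x => ⟨⟨x.1, (Subgroup.mem_inf.mp x.2).1⟩, (Subgroup.mem_inf.mp x.2).2⟩
      invFun := fun x => ⟨x.1.1, Subgroup.mem_inf.mpr ⟨x.1.2, x.2⟩⟩
      left_inv := fun _ => rfl
      right_inv := fun _ => rfl }

variable (n : ℕ) [NeZero n] (K : Type*) [Field K] [NumberField K]
  [IsCyclotomicExtension {n} ℚ K]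

/-- The Galois group of `ℚ(ζ_n)` acting on the roots of unity of an order dividing `n`. -/
def levelMap {m : ℕ} (h : m ∣ n) : Gal(K/ℚ) →* (ZMod m)ˣ :=
  (ZMod.unitsMap h).comp (IsCyclotomicExtension.Rat.galEquivZMod n K).toMonoidHom

theorem levelMap_surjective {m : ℕ} (h : m ∣ n) : Function.Surjective (levelMap n K h) :=
  (ZMod.unitsMap_surjective h).comp (MulEquiv.surjective _)

variable {p k m : ℕ} [hp : Fact p.Prime] (hn : n = p ^ k * m) (hm : ¬ p ∣ m)
  (Q : Ideal (𝓞 K)) [Q.IsMaximal] [Q.LiesOver (Ideal.span {(p : ℤ)})]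

include hn in
theorem dvd_level : m ∣ n := hn ▸ dvd_mul_left m (p ^ k)

include hm in
theorem coprime_level : p.Coprime m := hp.out.coprime_iff_not_dvd.mpr hm

include hn in
theorem ne_zero_level : NeZero m :=
  ⟨fun h => NeZero.ne n (by rw [hn, h, mul_zero])⟩

/-- The subgroup generated by `p` modulo `m`. -/
def frobGroup : Subgroup (ZMod m)ˣ :=
  Subgroup.zpowers (ZMod.unitOfCoprime p (coprime_level hm))

theorem card_frobGroup : Nat.card (frobGroup hm) = orderOf (p : ZMod m) := by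
  rw [frobGroup, Nat.card_zpowers, ← orderOf_injective _ Units.coeHom_injective, Units.coeHom_apply,
    ZMod.coe_unitOfCoprime]

include hn hm in
/-- The root of unity of order `m` modulo `Q` determines the image in `(ℤ/m)ˣ`. -/
theorem exists_residue_root : ∃ z : 𝓞 K ⧸ Q, IsPrimitiveRoot z m ∧ ∃ x : 𝓞 K,
    Ideal.Quotient.mk Q x = z ∧ ∀ σ : Gal(K/ℚ), Ideal.Quotient.mk Q (σ • x) =
      z ^ (levelMap n K (dvd_level n hn) σ : ZMod m).val := by
  haveI := ne_zero_level n hn
  have hζ := IsCyclotomicExtension.zeta_spec n ℚ K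
  set x : 𝓞 K := hζ.toInteger ^ p ^ k with hx
  have hxm : IsPrimitiveRoot x m := hζ.toInteger_isPrimitiveRoot.pow (NeZero.pos n) hn
  have hz : IsPrimitiveRoot (Ideal.Quotient.mk Q x) m := by
    refine hxm.idealQuotient_mk (by simpa using IsMaximal.ne_top inferInstance) ?_
    rw [← pow_inertiaDeg p]
    exact Nat.Coprime.pow_left _ (coprime_level hm)
  refine ⟨_, hz, x, rfl, fun σ => ?_⟩
  rw [IsCyclotomicExtension.Rat.galEquivZMod_smul_of_pow_eq n K σ
      (show x ^ n = 1 by rw [(hxm.pow_eq_one_iff_dvd n).mpr (dvd_level n hn)]),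
    map_pow, (hz.isOfFinOrder (NeZero.ne m)).pow_inj_mod, ← hz.eq_orderOf,
    ← ZMod.natCast_eq_natCast_iff', ZMod.natCast_zmod_val]
  show _ = ((ZMod.unitsMap _ _ : (ZMod m)ˣ) : ZMod m)
  rw [ZMod.unitsMap_val, ← ZMod.natCast_val]; rfl

include hn hm in
theorem inertia_le : Q.inertia Gal(K/ℚ) ≤ (levelMap n K (dvd_level n hn)).ker := fun σ hσ => by
  haveI := ne_zero_level n hn
  obtain ⟨z, hz, x, rfl, hx⟩ := exists_residue_root n K hn hm Q
  have h : Ideal.Quotient.mk Q (σ • x) = Ideal.Quotient.mk Q x := Ideal.Quotient.eq.mpr (hσ x)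
  rw [hx σ] at h
  nth_rewrite 2 [← pow_one (Ideal.Quotient.mk Q x)] at h
  rw [(hz.isOfFinOrder (NeZero.ne m)).pow_inj_mod, ← hz.eq_orderOf,
    ← ZMod.natCast_eq_natCast_iff', ZMod.natCast_zmod_val, Nat.cast_one] at h
  exact MonoidHom.mem_ker.mpr (Units.ext h)

include hn hm in
theorem stabilizer_le :
    stabilizer Gal(K/ℚ) Q ≤ (frobGroup hm).comap (levelMap n K (dvd_level n hn)) := fun σ hσ => by
  haveI := ne_zero_level n hn
  obtain ⟨z, hz, x, rfl, hx⟩ := exists_residue_root n K hn hm Q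
  let τ := IsFractionRing.stabilizerHom Gal(K/ℚ) (Ideal.span {(p : ℤ)}) Q
     (ℤ ⧸ span {(p : ℤ)}) (𝓞 K ⧸ Q) ⟨σ, hσ⟩
  have : CharP (ℤ ⧸ span {(p : ℤ)}) p := ringChar.of_eq <| Int.ringChar_idealQuot p
  have : Finite (𝓞 K ⧸ Q) := Ring.HasFiniteQuotients.finiteQuotient (NeZero.ne Q)
  obtain ⟨i, hi⟩ := FiniteField.exists_forall_apply_eq_pow (ℤ ⧸ span {(p : ℤ)}) p (𝓞 K ⧸ Q) τ
  have h₁ := IsFractionRing.stabilizerHom_apply_apply_mk Gal(K/ℚ) (Ideal.span {(p : ℤ)}) Q
      (ℤ ⧸ span {(p : ℤ)}) (𝓞 K ⧸ Q) ⟨σ, hσ⟩ x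
  simp only [Algebra.algebraMap_self, RingHomCompTriple.comp_apply] at h₁
  specialize hi (Ideal.Quotient.mk Q x)
  rw [h₁, Int.card_ideal_quot] at hi
  have hi' : Ideal.Quotient.mk Q x ^ (levelMap n K (dvd_level n hn) σ : ZMod m).val =
      Ideal.Quotient.mk Q x ^ (p ^ i) := (hx σ).symm.trans hi
  rw [(hz.isOfFinOrder (NeZero.ne m)).pow_inj_mod, ← hz.eq_orderOf,
    ← ZMod.natCast_eq_natCast_iff', ZMod.natCast_zmod_val] at hi'
  exact ⟨i, Units.ext (by simp [hi'])⟩

include hn hm in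
theorem ramification_and_inertiaDeg :
    (Ideal.span {(p : ℤ)}).ramificationIdxIn (𝓞 K) = Nat.totient (p ^ k) ∧
      (Ideal.span {(p : ℤ)}).inertiaDegIn (𝓞 K) = orderOf (p : ZMod m) := by
  rcases k with _ | k
  · simp only [pow_zero, one_mul] at hn
    subst hn
    exact ⟨by rw [pow_zero, Nat.totient_one,
      IsCyclotomicExtension.Rat.ramificationIdxIn_eq_of_not_dvd p K hm],
      IsCyclotomicExtension.Rat.inertiaDegIn_eq_of_not_dvd p K hm⟩
  · exact ⟨by rw [IsCyclotomicExtension.Rat.ramificationIdxIn_eq n K hn hm,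
      Nat.totient_prime_pow_succ hp.out],
      IsCyclotomicExtension.Rat.inertiaDegIn_eq n K hn hm⟩

include hn hm in
theorem card_ker_levelMap :
    Nat.card (levelMap n K (dvd_level n hn)).ker = Nat.totient (p ^ k) := by
  haveI := ne_zero_level n hn
  have h := Subgroup.card_mul_index (levelMap n K (dvd_level n hn)).ker
  rw [Subgroup.index_ker, MonoidHom.range_eq_top.mpr (levelMap_surjective n K _),
    Subgroup.card_top, Nat.card_eq_fintype_card (α := (ZMod m)ˣ), ZMod.card_units_eq_totient,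
    Nat.card_congr (IsCyclotomicExtension.Rat.galEquivZMod n K).toEquiv,
    Nat.card_eq_fintype_card (α := (ZMod n)ˣ), ZMod.card_units_eq_totient] at h
  rw [show Nat.totient n = Nat.totient (p ^ k) * Nat.totient m by
    rw [hn, Nat.totient_mul ((coprime_level hm).pow_left k)]] at h
  exact Nat.eq_of_mul_eq_mul_right (Nat.totient_pos.mpr (NeZero.pos m)) h

include hn hm in
theorem inertia_eq : Q.inertia Gal(K/ℚ) = (levelMap n K (dvd_level n hn)).ker := by
  haveI : IsGalois ℚ K := IsCyclotomicExtension.isGalois {n} ℚ K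
  refine Subgroup.eq_of_le_of_card_ge (inertia_le n K hn hm Q) (le_of_eq ?_)
  rw [card_inertia_eq_ramificationIdxIn (Ideal.span {(p : ℤ)}) Q,
    card_ker_levelMap n K hn hm, (ramification_and_inertiaDeg n K hn hm).1]

include hn hm in
theorem stabilizer_eq :
    stabilizer Gal(K/ℚ) Q = (frobGroup hm).comap (levelMap n K (dvd_level n hn)) := by
  haveI : IsGalois ℚ K := IsCyclotomicExtension.isGalois {n} ℚ K
  refine Subgroup.eq_of_le_of_card_ge (stabilizer_le n K hn hm Q) (le_of_eq ?_)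
  have h := card_map_mul_card_inf_ker (levelMap n K (dvd_level n hn))
    ((frobGroup hm).comap (levelMap n K (dvd_level n hn)))
  rw [Subgroup.map_comap_eq_self_of_surjective (levelMap_surjective n K _),
    inf_eq_right.mpr (MonoidHom.comap_bot (levelMap n K (dvd_level n hn)) ▸
      Subgroup.comap_mono bot_le), card_frobGroup, card_ker_levelMap n K hn hm] at h
  rw [← h, card_stabilizer_eq (Ideal.span {(p : ℤ)}) Q, (ramification_and_inertiaDeg n K hn hm).1,
    (ramification_and_inertiaDeg n K hn hm).2, mul_comm]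

variable [IsAbelianGalois ℚ K] (F : IntermediateField ℚ K)

/-- The image of the group of `F` in `(ℤ/m)ˣ`. -/
def fieldGroup : Subgroup (ZMod m)ˣ := F.fixingSubgroup.map (levelMap n K (dvd_level n hn))

/-- The class of `p` modulo the group of `F`. -/
def frobClass : (ZMod m)ˣ ⧸ fieldGroup n K hn F :=
  QuotientGroup.mk' _ (ZMod.unitOfCoprime p (coprime_level hm))

include hn hm in
/-- **The decomposition of `p` in `F`**. -/
theorem decomposition :
    (Ideal.span {(p : ℤ)}).inertiaDegIn (𝓞 F) = orderOf (frobClass n K hn hm F) ∧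
      ((Ideal.span {(p : ℤ)}).primesOver (𝓞 F)).ncard * orderOf (frobClass n K hn hm F) =
        Nat.card ((ZMod m)ˣ ⧸ fieldGroup n K hn F) := by
  haveI := ne_zero_level n hn
  haveI : IsGalois ℚ K := IsCyclotomicExtension.isGalois {n} ℚ K
  haveI : IsAbelianGalois ℚ F := IsAbelianGalois.tower_bot ℚ F K
  set pZ := Ideal.span {(p : ℤ)}
  set π := levelMap n K (dvd_level n hn)
  set H := F.fixingSubgroup
  set C := frobGroup (p := p) hm
  set M := fieldGroup n K hn F
  obtain ⟨⟨Q, hQ₁, hQ₂⟩⟩ := pZ.nonempty_primesOver (S := 𝓞 K)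
  haveI : pZ.IsMaximal := Ideal.IsPrime.isMaximal
    ((Ideal.span_singleton_prime (by exact_mod_cast hp.out.ne_zero)).mpr
      (Nat.prime_iff_prime_int.mp hp.out))
    (by simp [pZ, hp.out.ne_zero])
  haveI : Q.IsMaximal := .of_liesOver_isMaximal Q pZ
  let P : Ideal (𝓞 F) := Q.under (𝓞 F)
  haveI : Q.LiesOver P := ⟨rfl⟩
  haveI : P.LiesOver pZ := Ideal.LiesOver.tower_bot Q P pZ
  haveI : P.IsMaximal := .of_liesOver_isMaximal P pZ
  haveI : Finite (𝓞 F ⧸ P) := Ring.HasFiniteQuotients.finiteQuotient (NeZero.ne P)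
  haveI : Nonempty (P.primesOver (𝓞 K)) := ⟨⟨Q, inferInstance, inferInstance⟩⟩
  -- the groups of `K` over `F`
  let e : H ≃* Gal(K/F) := IntermediateField.fixingSubgroupEquiv F
  have he : ∀ (h : H) (x : 𝓞 K), (e h) • x = h • x := fun h x => rfl
  have hst : Nat.card (stabilizer Gal(K/F) Q) = Nat.card (H ⊓ stabilizer Gal(K/ℚ) Q : Subgroup _) := by
    rw [← Nat.card_congr (Ideal.stabilizerEquiv Q e he).toEquiv]
    exact Nat.card_congr
      { toFun := fun x => ⟨x.1.1, Subgroup.mem_inf.mpr ⟨x.1.2, x.2⟩⟩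
        invFun := fun x => ⟨⟨x.1, (Subgroup.mem_inf.mp x.2).1⟩, (Subgroup.mem_inf.mp x.2).2⟩
        left_inv := fun _ => rfl
        right_inv := fun _ => rfl }
  have hin : Nat.card (Q.inertia Gal(K/F)) = Nat.card (H ⊓ Q.inertia Gal(K/ℚ) : Subgroup _) := by
    rw [← Nat.card_congr (Ideal.inertiaEquiv Q e he).toEquiv]
    exact Nat.card_congr
      { toFun := fun x => ⟨x.1.1, Subgroup.mem_inf.mpr ⟨x.1.2, x.2⟩⟩
        invFun := fun x => ⟨⟨x.1, (Subgroup.mem_inf.mp x.2).1⟩, (Subgroup.mem_inf.mp x.2).2⟩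
        left_inv := fun _ => rfl
        right_inv := fun _ => rfl }
  rw [inertia_eq n K hn hm Q] at hin
  rw [stabilizer_eq n K hn hm Q] at hst
  -- the image of the stabiliser in the group of `F`
  have hmap : (H ⊓ C.comap π).map π = M ⊓ C := by
    refine le_antisymm ?_ fun u hu => ?_
    · rintro _ ⟨h, hh, rfl⟩
      exact ⟨⟨h, hh.1, rfl⟩, hh.2⟩
    · obtain ⟨⟨h, hh, rfl⟩, hC⟩ := hu
      exact ⟨h, ⟨hh, hC⟩, rfl⟩
  have hker : (H ⊓ C.comap π) ⊓ π.ker = H ⊓ π.ker := by
    refine le_antisymm (inf_le_inf_right _ inf_le_left) fun h hh => ⟨⟨hh.1, ?_⟩, hh.2⟩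
    show π h ∈ C
    rw [MonoidHom.mem_ker.mp hh.2]
    exact one_mem C
  have hSH := card_map_mul_card_inf_ker π (H ⊓ C.comap π)
  rw [hmap, hker, ← hst, ← hin] at hSH
  have hI : Nat.card (Q.inertia Gal(K/F)) ≠ 0 := Nat.card_pos.ne'
  -- inertia degree in `K` over `F`
  have hf' : P.inertiaDegIn (𝓞 K) = Nat.card (M ⊓ C : Subgroup _) := by
    have h1 := card_stabilizer_eq (G := Gal(K/F)) P Q
    rw [← card_inertia_eq_ramificationIdxIn (G := Gal(K/F)) P Q, ← hSH, mul_comm] at h1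
    exact (Nat.eq_of_mul_eq_mul_left (Nat.pos_of_ne_zero hI) h1).symm
  have hC : Nat.card C = Nat.card (M ⊓ C : Subgroup _) * orderOf (frobClass n K hn hm F) := by
    have h1 := card_map_mul_card_inf_ker (QuotientGroup.mk' M) C
    rw [QuotientGroup.ker_mk', inf_comm C M, show C = Subgroup.zpowers _ from rfl,
      MonoidHom.map_zpowers, Nat.card_zpowers] at h1
    exact h1.symm.trans (mul_comm _ _)
  have hfK : pZ.inertiaDegIn (𝓞 F) * P.inertiaDegIn (𝓞 K) = pZ.inertiaDegIn (𝓞 K) :=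
    inertiaDegIn_mul_inertiaDegIn pZ P Gal(F/ℚ) (𝓞 K) Gal(K/ℚ) Gal(K/F)
  rw [hf', (ramification_and_inertiaDeg n K hn hm).2, ← card_frobGroup hm, hC, mul_comm] at hfK
  have hMC : 0 < Nat.card (M ⊓ C : Subgroup _) := Nat.card_pos
  refine ⟨Nat.eq_of_mul_eq_mul_left hMC hfK, ?_⟩
  -- the numbers of primes
  have hgH : (P.primesOver (𝓞 K)).ncard * Nat.card (stabilizer Gal(K/F) Q) = Nat.card H := by
    rw [card_stabilizer_eq (G := Gal(K/F)) P Q,
      ncard_primesOver_mul_ramificationIdxIn_mul_inertiaDegIn P (𝓞 K) Gal(K/F)]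
    exact (Nat.card_congr e.toEquiv).symm
  have hgG : (pZ.primesOver (𝓞 K)).ncard * Nat.card (stabilizer Gal(K/ℚ) Q) = Nat.card Gal(K/ℚ) := by
    rw [card_stabilizer_eq (G := Gal(K/ℚ)) pZ Q,
      ncard_primesOver_mul_ramificationIdxIn_mul_inertiaDegIn pZ (𝓞 K) Gal(K/ℚ)]
  have hgm : (pZ.primesOver (𝓞 F)).ncard * (P.primesOver (𝓞 K)).ncard =
      (pZ.primesOver (𝓞 K)).ncard :=
    ncard_primesOver_mul_ncard_primesOver P Gal(F/ℚ) (𝓞 K) Gal(K/ℚ)
  have hG := card_map_mul_card_inf_ker π ⊤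
  rw [top_inf_eq, Subgroup.map_top_of_surjective π (levelMap_surjective n K _), Subgroup.card_top,
    Subgroup.card_top] at hG
  have hH := card_map_mul_card_inf_ker π H
  rw [← hin] at hH
  have hZ := Subgroup.card_eq_card_quotient_mul_card_subgroup M
  have hD : Nat.card (stabilizer Gal(K/ℚ) Q) = Nat.card C * Nat.card π.ker := by
    rw [card_stabilizer_eq (G := Gal(K/ℚ)) pZ Q, (ramification_and_inertiaDeg n K hn hm).1,
      (ramification_and_inertiaDeg n K hn hm).2, card_ker_levelMap n K hn hm, card_frobGroup,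
      mul_comm]
  change Nat.card M * Nat.card (Q.inertia Gal(K/F)) = Nat.card H at hH
  rw [← hgm, hD, ← hG, hZ, hC] at hgG
  rw [← hH, ← hSH] at hgH
  have hH' : (P.primesOver (𝓞 K)).ncard * Nat.card (M ⊓ C : Subgroup _) = Nat.card M :=
    Nat.eq_of_mul_eq_mul_right (Nat.pos_of_ne_zero hI) (by rw [← hgH]; ring)
  refine Nat.eq_of_mul_eq_mul_right (mul_pos (Nat.card_pos (α := M)) (Nat.card_pos (α := π.ker))) ?_
  rw [← mul_assoc, ← hH']
  rw [← hH'] at hgG
  rw [show Nat.card ((ZMod m)ˣ ⧸ M) * ((P.primesOver (𝓞 K)).ncard * Nat.card (M ⊓ C : Subgroup _) *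
    Nat.card π.ker) = Nat.card ((ZMod m)ˣ ⧸ M) * ((P.primesOver (𝓞 K)).ncard *
    Nat.card (M ⊓ C : Subgroup _)) * Nat.card π.ker by ring, ← hgG]
  ring

end FA.AbelianZeta

end
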