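import Fermat.Agent.AbelianZeta.CharProd
import Fermat.Agent.AbelianZeta.Local

/-!
# The characters of an abelian field at a prime

The product of `1 - χ₀(p) T` over the primitive characters of a subfield `F` of a cyclotomic field
is `(1 - T ^ f) ^ g`, `f` the inertia degree and `g` the number of the primes above `p` in `F`:
the characters with `χ₀(p) ≠ 0` are the characters of `(ℤ/m)ˣ` modulo the group of `F`.
-/

set_option autoImplicit false
set_option linter.style.haveILetI false
set_option linter.unusedSectionVars false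

noncomputable section

open NumberField DirichletCharacter

namespace FA.AbelianZeta

variable (n : ℕ) [NeZero n] (K : Type*) [Field K] [NumberField K]
  [IsCyclotomicExtension {n} ℚ K] [IsAbelianGalois ℚ K] (F : IntermediateField ℚ K)

/-- The Dirichlet characters of level `n` attached to `F`. -/
def fieldChars : Subgroup (DirichletCharacter ℂ n) :=
  IsCyclotomicExtension.Rat.intermediateFieldEquivSubgroupChar n K ℂ F

theorem mem_fieldChars_iff {χ : DirichletCharacter ℂ n} :
    χ ∈ fieldChars n K F ↔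
      ∀ σ ∈ F.fixingSubgroup, χ (IsCyclotomicExtension.Rat.galEquivZMod n K σ) = 1 :=
  IsCyclotomicExtension.Rat.mem_intermediateFieldEquivSubgroupChar_iff n K ℂ F χ

variable {p k m : ℕ} [hp : Fact p.Prime] (hn : n = p ^ k * m) (hm : ¬ p ∣ m)

/-- A character modulo the group of `F` as a character of level `n`. -/
def liftChar (ψ : (ZMod m)ˣ ⧸ fieldGroup n K hn F →* ℂˣ) : DirichletCharacter ℂ n :=
  changeLevel (dvd_level n hn) (MulChar.ofUnitHom (ψ.comp (QuotientGroup.mk' _)))

theorem liftChar_apply (ψ : (ZMod m)ˣ ⧸ fieldGroup n K hn F →* ℂˣ) (u : (ZMod n)ˣ) :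
    liftChar n K F hn ψ u =
      (ψ (QuotientGroup.mk' _ (ZMod.unitsMap (dvd_level n hn) u)) : ℂ) := by
  rw [liftChar, changeLevel_eq_cast_of_dvd _ (dvd_level n hn), ← ZMod.unitsMap_val (dvd_level n hn),
    MulChar.ofUnitHom_coe]
  rfl

theorem liftChar_mem (ψ : (ZMod m)ˣ ⧸ fieldGroup n K hn F →* ℂˣ) :
    liftChar n K F hn ψ ∈ fieldChars n K F := by
  refine (mem_fieldChars_iff n K F).mpr fun σ hσ => ?_
  rw [liftChar_apply]
  rw [show QuotientGroup.mk' (fieldGroup n K hn F) (ZMod.unitsMap (dvd_level n hn)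
      (IsCyclotomicExtension.Rat.galEquivZMod n K σ)) = 1 from
    (QuotientGroup.eq_one_iff _).mpr ⟨σ, hσ, rfl⟩, map_one, Units.val_one]

theorem liftChar_injective : Function.Injective (liftChar n K F hn) := fun ψ ψ' h => by
  refine QuotientGroup.monoidHom_ext _ (MonoidHom.ext fun u => ?_)
  obtain ⟨v, rfl⟩ := ZMod.unitsMap_surjective (dvd_level n hn) u
  have h' := congrArg (fun χ : DirichletCharacter ℂ n => χ v) h
  simp only [liftChar_apply] at h'
  exact Units.ext h'

include hm in
/-- The primitive character of a lifted character at `p`. -/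
theorem primitive_liftChar (ψ : (ZMod m)ˣ ⧸ fieldGroup n K hn F →* ℂˣ) :
    (liftChar n K F hn ψ).primitiveCharacter p = (ψ (frobClass n K hn hm F) : ℂ) := by
  haveI := ne_zero_level n hn
  have hpm : IsCoprime (p : ℤ) m := Nat.isCoprime_iff_coprime.mpr (coprime_level hm)
  rw [← Int.cast_natCast p, liftChar, primitiveCharacter_changeLevel_apply,
    primitiveCharacter_apply_of_isCoprime _ hpm, Int.cast_natCast,
    ← ZMod.coe_unitOfCoprime p (coprime_level hm), MulChar.ofUnitHom_coe]
  rfl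

include hn hm in
/-- A character of `F` with `χ₀(p) ≠ 0` is a lifted one. -/
theorem exists_liftChar_eq {χ : DirichletCharacter ℂ n} (hχ : χ ∈ fieldChars n K F)
    (hp0 : χ.primitiveCharacter p ≠ 0) : ∃ ψ, liftChar n K F hn ψ = χ := by
  have hco : p.Coprime χ.conductor := by
    rw [← Nat.isCoprime_iff_coprime, ← apply_ne_zero_iff (χ := χ.primitiveCharacter)]
    simpa using hp0
  have hdvd : χ.conductor ∣ m := by
    refine (Nat.Coprime.dvd_mul_left (Nat.Coprime.pow_right k hco.symm)).mp ?_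
    rw [← hn]
    exact χ.conductor_dvd_level
  obtain ⟨h, χm, hχm⟩ := (mem_conductorSet_iff_conductor_dvd χ (dvd_level n hn)).mpr hdvd
  have htriv : fieldGroup n K hn F ≤ χm.toUnitHom.ker := by
    rintro _ ⟨σ, hσ, rfl⟩
    refine MonoidHom.mem_ker.mpr (Units.ext ?_)
    have h1 := (mem_fieldChars_iff n K F).mp hχ σ hσ
    rw [hχm, changeLevel_eq_cast_of_dvd _ h] at h1
    rw [MulChar.coe_toUnitHom, Units.val_one]
    exact h1
  refine ⟨QuotientGroup.lift _ χm.toUnitHom htriv, ?_⟩
  rw [hχm, liftChar]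
  congr 1
  exact MulChar.ext fun u => by simp

include hn hm in
/-- **The local factor of `F` as a product over its characters.** -/
theorem prod_primitive_eq [Fintype (fieldChars n K F)] (T : ℂ) :
    ∏ χ : fieldChars n K F, (1 - χ.1.primitiveCharacter p * T) =
      (1 - T ^ (Ideal.span {(p : ℤ)}).inertiaDegIn (𝓞 F)) ^
        ((Ideal.span {(p : ℤ)}).primesOver (𝓞 F)).ncard := by
  classical
  haveI := ne_zero_level n hn
  haveI : NeZero (Monoid.exponent ((ZMod m)ˣ ⧸ fieldGroup n K hn F) : ℂ) :=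
    ⟨Nat.cast_ne_zero.mpr (Monoid.exponent_ne_zero_of_finite (G := (ZMod m)ˣ ⧸ fieldGroup n K hn F))⟩
  haveI : Finite ((ZMod m)ˣ ⧸ fieldGroup n K hn F →* ℂˣ) := Finite.of_equiv _
    (CommGroup.monoidHom_mulEquiv_of_hasEnoughRootsOfUnity
      ((ZMod m)ˣ ⧸ fieldGroup n K hn F) ℂ).some.symm.toEquiv
  let _ : Fintype ((ZMod m)ˣ ⧸ fieldGroup n K hn F →* ℂˣ) := Fintype.ofFinite _
  obtain ⟨hf, hg⟩ := decomposition n K hn hm F
  have hg' : ((Ideal.span {(p : ℤ)}).primesOver (𝓞 F)).ncard =
      Nat.card ((ZMod m)ˣ ⧸ fieldGroup n K hn F) / orderOf (frobClass n K hn hm F) := by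
    rw [← hg]; exact (Nat.mul_div_cancel _ (orderOf_pos (frobClass n K hn hm F))).symm
  rw [hf, hg', ← prod_one_sub_monoidHom (frobClass n K hn hm F) T]
  symm
  rw [← Finset.prod_filter_of_ne (p := fun χ : fieldChars n K F => χ.1.primitiveCharacter p ≠ 0)
    fun χ _ h h0 => h (by rw [h0, zero_mul, sub_zero])]
  refine Finset.prod_bij (fun ψ _ => ⟨liftChar n K F hn ψ, liftChar_mem n K F hn ψ⟩)
    (fun ψ _ => Finset.mem_filter.mpr ⟨Finset.mem_univ _, ?_⟩)
    (fun _ _ _ _ e => liftChar_injective n K F hn (congrArg Subtype.val e)) (fun χ hχ => ?_)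
    fun ψ _ => ?_
  · rw [primitive_liftChar n K F hn hm]
    exact Units.ne_zero _
  · obtain ⟨ψ, hψ⟩ := exists_liftChar_eq n K F hn hm χ.2 (Finset.mem_filter.mp hχ).2
    exact ⟨ψ, Finset.mem_univ _, Subtype.ext hψ⟩
  · rw [primitive_liftChar n K F hn hm]

end FA.AbelianZeta

end
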