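import Fermat.Agent.AbelianZeta.Chars
import Fermat.Agent.ExtVanish.Euler
import Mathlib.NumberTheory.EulerProduct.DirichletLSeries
import Mathlib.NumberTheory.LSeries.Nonvanishing

/-!
# The zeta function of an abelian field

For `1 < re s` the Dedekind zeta function of a subfield of a cyclotomic field is the product of the
`L`-functions of the primitive characters of the field.
-/

set_option autoImplicit false
set_option linter.style.haveILetI false

noncomputable section

open NumberField IsDedekindDomain Filter Topology Ideal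
open scoped nonZeroDivisors Classical

namespace FA.AbelianZeta

variable {F : Type*} [Field F] [NumberField F]

/-- `N(I) ^ (-s)` as a homomorphism. -/
def normPow (s : ℂ) : (Ideal (𝓞 F))⁰ →* ℂ where
  toFun I := ((absNorm I.1 : ℕ) : ℂ) ^ (-s)
  map_one' := by simp
  map_mul' I J := by
    rw [Submonoid.coe_mul, map_mul, Nat.cast_mul, Complex.natCast_mul_natCast_cpow]

theorem norm_normPow (s : ℂ) (I : (Ideal (𝓞 F))⁰) : ‖normPow s I‖ = FA.Ext.zN s.re I := by
  show ‖((absNorm I.1 : ℕ) : ℂ) ^ (-s)‖ = _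
  rw [Complex.norm_natCast_cpow_of_pos
    (Nat.pos_of_ne_zero (absNorm_ne_zero_of_nonZeroDivisors I)), Complex.neg_re]
  rfl

variable {s : ℂ} (hs : 1 < s.re)

include hs in
theorem summable_norm_normPow : Summable fun I : (Ideal (𝓞 F))⁰ => ‖normPow s I‖ :=
  (FA.Ext.summable_zN hs).congr fun I => (norm_normPow s I).symm

include hs in
theorem dedekindZeta_eq_tsum : dedekindZeta F s = ∑' I, normPow (F := F) s I := by
  have h' : Summable fun c => normPow s
      ((Equiv.sigmaFiberEquiv fun I : (Ideal (𝓞 F))⁰ => absNorm I.1) c) :=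
    (Equiv.sigmaFiberEquiv _).summable_iff.mpr (summable_norm_normPow hs).of_norm
  rw [← (Equiv.sigmaFiberEquiv fun I : (Ideal (𝓞 F))⁰ => absNorm I.1).tsum_eq,
    Summable.tsum_sigma h', dedekindZeta, LSeries]
  refine tsum_congr fun n => ?_
  rcases eq_or_ne n 0 with rfl | hn
  · have : IsEmpty {I : (Ideal (𝓞 F))⁰ // absNorm I.1 = 0} :=
      ⟨fun I => absNorm_ne_zero_of_nonZeroDivisors I.1 I.2⟩
    simp
  have hcard : Nat.card {I : (Ideal (𝓞 F))⁰ // absNorm I.1 = n} =
      Nat.card {I : Ideal (𝓞 F) // absNorm I = n} := by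
    refine Nat.card_congr
      { toFun := fun I => ⟨I.1.1, I.2⟩
        invFun := fun I => ⟨⟨I.1, mem_nonZeroDivisors_iff_ne_zero.mpr fun h => hn ?_⟩, I.2⟩
        left_inv := fun I => rfl
        right_inv := fun I => rfl }
    rw [← I.2, h]; simp
  rw [LSeries.term_of_ne_zero hn,
    show (∑' c : {I : (Ideal (𝓞 F))⁰ // absNorm I.1 = n},
        normPow s ((Equiv.sigmaFiberEquiv fun I : (Ideal (𝓞 F))⁰ => absNorm I.1) ⟨n, c⟩)) =
        ∑' _c : {I : (Ideal (𝓞 F))⁰ // absNorm I.1 = n}, (n : ℂ) ^ (-s) from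
      tsum_congr fun c => by simp [normPow, c.2],
    tsum_const, nsmul_eq_mul, hcard, Complex.cpow_neg, div_eq_mul_inv]

include hs in
theorem hasProd_primes : HasProd (fun v : HeightOneSpectrum (𝓞 F) =>
    (1 - ((absNorm v.asIdeal : ℕ) : ℂ) ^ (-s))⁻¹) (dedekindZeta F s) := by
  rw [dedekindZeta_eq_tsum hs]
  refine FA.Ext.tendsto_eulerProduct (normPow s) (summable_norm_normPow hs) fun v => ?_
  rw [norm_normPow]
  linarith [FA.Ext.zN_primeIdeal_le_half hs.le v]

/-- The rational prime below a prime. -/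
def below (v : HeightOneSpectrum (𝓞 F)) : Nat.Primes :=
  ⟨_, (FA.Ext.exists_rat_prime_mem v).choose_spec.1⟩

theorem below_mem (v : HeightOneSpectrum (𝓞 F)) : ((below v : ℕ) : 𝓞 F) ∈ v.asIdeal :=
  (FA.Ext.exists_rat_prime_mem v).choose_spec.2

theorem isMaximal_span (p : Nat.Primes) : (Ideal.span {((p : ℕ) : ℤ)}).IsMaximal :=
  Ideal.IsPrime.isMaximal
    ((Ideal.span_singleton_prime (by exact_mod_cast p.2.ne_zero)).mpr
      (Nat.prime_iff_prime_int.mp p.2))
    (by simp [p.2.ne_zero])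

theorem liesOver_iff_below (v : HeightOneSpectrum (𝓞 F)) (p : Nat.Primes) :
    v.asIdeal.LiesOver (Ideal.span {((p : ℕ) : ℤ)}) ↔ below v = p := by
  have hover : ∀ q : Nat.Primes, ((q : ℕ) : 𝓞 F) ∈ v.asIdeal →
      v.asIdeal.LiesOver (Ideal.span {((q : ℕ) : ℤ)}) := fun q hq =>
    ⟨(isMaximal_span q).eq_of_le (Ideal.IsPrime.under ℤ v.asIdeal).ne_top
      ((Ideal.span_singleton_le_iff_mem _).mpr (Ideal.mem_comap.mpr (by simpa using hq)))⟩
  refine ⟨fun h => ?_, fun h => h ▸ hover _ (below_mem v)⟩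
  have e := h.over.trans (hover _ (below_mem v)).over.symm
  rw [Ideal.span_singleton_eq_span_singleton, Int.associated_iff_natAbs] at e
  exact (Subtype.ext (by simpa using e)).symm

/-- The primes over `p`. -/
def fiberEquiv (p : Nat.Primes) :
    {v : HeightOneSpectrum (𝓞 F) // below v = p} ≃
      (Ideal.span {((p : ℕ) : ℤ)}).primesOver (𝓞 F) where
  toFun v := ⟨v.1.asIdeal, v.1.isPrime, (liesOver_iff_below v.1 p).mpr v.2⟩
  invFun P := ⟨⟨P.1, P.2.1, fun h => by
      have h2 := P.2.2.over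
      rw [h, Ideal.under_bot, Ideal.span_singleton_eq_bot] at h2
      exact p.2.ne_zero (by exact_mod_cast h2)⟩,
    (liesOver_iff_below _ p).mp P.2.2⟩
  left_inv _ := rfl
  right_inv _ := rfl

theorem finite_fiber (p : Nat.Primes) : Finite {v : HeightOneSpectrum (𝓞 F) // below v = p} :=
  haveI := isMaximal_span p
  haveI : Finite ((Ideal.span {((p : ℕ) : ℤ)}).primesOver (𝓞 F)) :=
    (IsDedekindDomain.primesOver_finite _ _).to_subtype
  Finite.of_equiv _ (fiberEquiv p).symm

include hs in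
/-- The Euler product over the rational primes, for a Galois field. -/
theorem hasProd_rat [IsGalois ℚ F] : HasProd (fun p : Nat.Primes =>
    ((1 - (((p : ℕ) : ℂ) ^ (-s)) ^ (Ideal.span {((p : ℕ) : ℤ)}).inertiaDegIn (𝓞 F)) ^
      ((Ideal.span {((p : ℕ) : ℤ)}).primesOver (𝓞 F)).ncard)⁻¹) (dedekindZeta F s) := by
  refine HasProd.sigma ((Equiv.sigmaFiberEquiv below).hasProd_iff.mpr (hasProd_primes hs))
    fun p => ?_
  haveI := finite_fiber (F := F) p
  let _ : Fintype {v : HeightOneSpectrum (𝓞 F) // below v = p} := Fintype.ofFinite _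
  haveI : Fact (p : ℕ).Prime := ⟨p.2⟩
  have h := hasProd_fintype fun v : {v : HeightOneSpectrum (𝓞 F) // below v = p} =>
    (1 - ((absNorm v.1.asIdeal : ℕ) : ℂ) ^ (-s))⁻¹
  rw [Finset.prod_congr rfl fun v _ => show (1 - ((absNorm v.1.asIdeal : ℕ) : ℂ) ^ (-s))⁻¹ =
      (1 - (((p : ℕ) : ℂ) ^ (-s)) ^ (Ideal.span {((p : ℕ) : ℤ)}).inertiaDegIn (𝓞 F))⁻¹ by
    haveI := (liesOver_iff_below v.1 p).mpr v.2
    haveI := v.1.isMaximal
    rw [inertiaDegIn_eq_inertiaDeg (Ideal.span {((p : ℕ) : ℤ)}) v.1.asIdeal Gal(F/ℚ),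
      ← pow_inertiaDeg (p : ℕ) v.1.asIdeal, Nat.cast_pow, ← Complex.natCast_cpow_natCast_mul,
      Complex.cpow_nat_mul],
    Finset.prod_const, Finset.card_univ, inv_pow, ← Nat.card_eq_fintype_card,
    Nat.card_congr (fiberEquiv p), Nat.card_coe_set_eq] at h
  exact h

instance neZero_conductor {n : ℕ} [NeZero n] (χ : DirichletCharacter ℂ n) : NeZero χ.conductor :=
  ⟨χ.conductor_ne_zero⟩

/-- **The zeta function of a subfield of a cyclotomic field is the product of the `L`-series of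
its primitive characters.** -/
theorem dedekindZeta_eq_prod (n : ℕ) [NeZero n] (K : Type*) [Field K] [NumberField K]
    [IsCyclotomicExtension {n} ℚ K] [IsAbelianGalois ℚ K] (F : IntermediateField ℚ K)
    [Fintype (fieldChars n K F)] (hs : 1 < s.re) :
    dedekindZeta F s =
      ∏ χ : fieldChars n K F, DirichletCharacter.LFunction χ.1.primitiveCharacter s := by
  haveI : IsAbelianGalois ℚ F := IsAbelianGalois.tower_bot ℚ F K
  refine (hasProd_rat (F := F) hs).unique ?_
  have hR := hasProd_prod (L := SummationFilter.unconditional Nat.Primes)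
    (s := (Finset.univ : Finset (fieldChars n K F))) fun χ _ =>
    DirichletCharacter.LSeries_eulerProduct_hasProd χ.1.primitiveCharacter hs
  simp only [← DirichletCharacter.LFunction_eq_LSeries _ hs] at hR
  convert hR using 1
  funext p
  haveI : Fact (p : ℕ).Prime := ⟨p.2⟩
  have h := prod_primitive_eq n K F (p := (p : ℕ)) (k := n.factorization p)
    (m := n / (p : ℕ) ^ n.factorization p) (Nat.ordProj_mul_ordCompl_eq_self n p).symm
    (Nat.not_dvd_ordCompl p.2 (NeZero.ne n)) (((p : ℕ) : ℂ) ^ (-s))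
  rw [Finset.prod_inv_distrib]
  exact (congrArg (·⁻¹) h).symm

end FA.AbelianZeta

end
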